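import Fermat.Agent.Ribet.H472.Frames
import Fermat.Agent.Ribet.H704.CoreOutSpec

/-!
# RIBET row 38, WALL-p, CoreOut leaf INST-E = DICT-PURE (helper472)

`dictPure : H704.CoreOut.DictPureStatement` — the slope dictionary in PURE form, VERBATIM.

`nodeGenOfPure` is the general two-prime form (residue characteristic `p`, exponent `m`):
pure with exponent `m` at every closed point of the special fibre of the finite chart ⟹ both
reductions lie in `k(X₀(M))` and have `m`-divisible orders at the non-cuspidal places.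
-/

set_option autoImplicit false
set_option linter.unusedSectionVars false
set_option linter.style.haveILetI false
set_option synthInstance.maxHeartbeats 400000
set_option maxHeartbeats 1600000

noncomputable section

namespace Fermat.Agent.Ribet.H472

open AlgebraicCurve ModularCurve HahnSeries
open Fermat.Agent.S24 Fermat.Agent.A2.H708 Fermat.Agent.A2.H528 Fermat.Agent.A2.H129
open Fermat.Agent.Ribet.H884 Fermat.Agent.Ribet.H997
open Fermat.Agent.A2 Fermat.Agent.A2.Mod Fermat.Agent.S18.H602

theorem wF_coe_congr472 {N N' : ℕ} [NeZero N] [NeZero N'] (h : N = N') (f : FF N) (f' : FF N')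
    (hf : (f : LaurentSeries Kbar) = (f' : LaurentSeries Kbar)) :
    ((wF N f : FF N) : LaurentSeries Kbar) = ((wF N' f' : FF N') : LaurentSeries Kbar) := by
  subst h
  have e : f = f' := Subtype.ext hf
  rw [e]

/-- **DICT (pure form), two-prime form**: residue characteristic `p`, exponent `m`. -/
theorem nodeGenOfPure {A : ValuationSubring Kbar} {E : IntermediateField ℚ Kbar}
    {M p : ℕ} [NeZero M] [NeZero p] [NeZero (p * M)] {w : Mod.RE A E}
    (hS : Mod.Setting A E M p w) (hE : A2.GoodField A E) (m : ℕ)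
    (G : Mod.FE E (M * p)) (G' : FF (p * M)) (hG : G ≠ 0)
    (hG' : (G' : LaurentSeries Kbar) = coeffMap (algebraMap E Kbar) (G : LaurentSeries E))
    (hpure : ∀ n : Ideal (Mod.chartAlg A E (M * p) (Mod.xE E M p)), n.IsMaximal →
      algebraMap (Mod.RE A E) (Mod.chartAlg A E (M * p) (Mod.xE E M p)) w ∈ n →
      ∃ (d : Mod.FE E (M * p)) (a : ℤ), d ≠ 0 ∧
        Alg.LocUnit (Mod.chartAlg A E (M * p) (Mod.xE E M p)) n
          (G * Mod.cE A E (M * p) w ^ a * d ^ m)) :
    ∃ r₁ r₂ : LaurentSeries (kA A), IsRedInf (p * M) A G' r₁ ∧ IsRedZero (p * M) A G' r₂ ∧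
      PDivFin m M r₁ ∧ PDivFin m M r₂ := by
  obtain ⟨r₁, r₂, h₁, h₂, hd₁, hd₂⟩ := dictGen hS hE m G hG hpure
  refine ⟨r₁, r₂, ?_, ?_, hd₁, hd₂⟩
  · rw [isRedInf_iff_isRedSer, hG']
    exact h₁
  · have e : ((wF (p * M) G' : FF (p * M)) : LaurentSeries Kbar) =
        iotaS E (M * p) (Mod.H751.frickeE E (M * p) G) := by
      rw [wF_coe_congr472 (mul_comm p M) G' (Mod.H751.iotaE E (M * p) G)
        (hG'.trans (Mod.H751.coe_iotaE E (M * p) G).symm),
        ← Mod.H751.iotaE_frickeE]
      rfl
    show IsRedInf (p * M) A (wF (p * M) G') r₂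
    rw [isRedInf_iff_isRedSer, e]
    exact h₂

/-- **DICT (pure form)**, VERBATIM `H704.CoreOut.DictPureStatement`. -/
theorem dictPure : Fermat.Agent.Ribet.H704.CoreOut.DictPureStatement := by
  intro p M' _ _ _ _ _ A _ E w hS hE G G' hG hG' hpure
  exact nodeGenOfPure hS hE p G G' hG hG' hpure

end Fermat.Agent.Ribet.H472
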