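import Fermat.Agent.Ribet.H472.PlaceCore
import Fermat.Agent.Ribet.H997.RedField
import Fermat.Agent.A2.H553.GaussA
import Fermat.Agent.A2.Mod.H372.S3Base

/-!
# RIBET row 38, WALL-p, CoreOut leaf INST-E — the reduction of `V∞` at a good level (helper472)

`E` a level with `R_E = A ∩ E` a discrete valuation ring, `V = V∞` the Gauss valuation ring of
`F_{N,E} = FE E N`.  We define the reduction with values in `k((t))`, `k = kA A` the residue field
of `A ⊆ ℚ̄` (NOT of `R_E`), so that it can be compared with `H884.IsRedInf`: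

* `iotaS E N : FE E N →+* ℚ̄((t))`                       the `t`-expansion;
* `rho hV : V →+* k((t))`                                  the reduction (`= H553.redA A ∘ ι`);
* `rho_eq`, `rho_cE`, `rho_jE`                             computation on normal forms, constants, `j_d`;
* `inv_mem_of_rho_ne_zero`                                 `ρ` detects the units of `V`;
* `isRedSer_rho`, `isRedSer_of_scaled`                     `ρ s` is a reduction of `ι s` in the sense of
                                                           `H997.IsRedSer` (= `H884.IsRedInf`);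
* `rho_mem_fullC`, `rhoF`                                  at level `M·p`: values in `k(X₀(M))`.
-/

set_option autoImplicit false
set_option linter.unusedSectionVars false
set_option linter.style.haveILetI false
set_option synthInstance.maxHeartbeats 400000
set_option maxHeartbeats 1600000

noncomputable section

namespace Fermat.Agent.Ribet.H472

open AlgebraicCurve ModularCurve HahnSeries
open Fermat.Agent.S24 Fermat.Agent.A2.H708 Fermat.Agent.A2.H528
open Fermat.Agent.Ribet.H884 Fermat.Agent.Ribet.H997
open Fermat.Agent.A2 Fermat.Agent.A2.Mod Fermat.Agent.S18.H602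

variable {A : ValuationSubring Kbar} {E : IntermediateField ℚ Kbar} {N : ℕ}

/-- The `t`-expansion with coefficients in `ℚ̄`. -/
def iotaS (E : IntermediateField ℚ Kbar) (N : ℕ) : Mod.FE E N →+* LaurentSeries Kbar :=
  (coeffMap (algebraMap E Kbar)).comp (Mod.FE E N).val.toRingHom

theorem iotaS_apply (f : Mod.FE E N) :
    iotaS E N f = coeffMap (algebraMap E Kbar) (f : LaurentSeries E) := rfl

theorem iotaS_algebraMap (c : E) :
    iotaS E N (algebraMap E (Mod.FE E N) c) = cst (algebraMap E Kbar c) := by
  rw [iotaS_apply]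
  exact coeffMap_algebraMap' (algebraMap E Kbar) c

theorem iotaS_injective : Function.Injective (iotaS E N) := (iotaS E N).injective

theorem iotaS_mem_bar (f : Mod.FE E N) : iotaS E N f ∈ modularFunctionFieldBar N :=
  coeffMap_mem_laurentBaseChange _ (algebraMap E Kbar) f.2

/-- elements of `V∞` have `A`-integral Gauss form. -/
theorem iotaS_mem_gaussA {V : ValuationSubring (Mod.FE E N)} (hV : Mod.IsVinf A E N V)
    {f : Mod.FE E N} (hf : f ∈ V) : iotaS E N f ∈ Fermat.Agent.A2.H553.gaussA A := by
  obtain ⟨U₁, U₂, h₂, -, he⟩ := (hV f).mp hf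
  refine ⟨upA A E U₁, upA A E U₂, red_upA_ne_zero E h₂, ?_⟩
  have h := congrArg (coeffMap (algebraMap E Kbar)) he
  rw [map_mul, ← incl_upA, ← incl_upA] at h
  exact h

/-- **The reduction** `V∞ → k((t))`, `k` the residue field of `A`. -/
def rho {V : ValuationSubring (Mod.FE E N)} (hV : Mod.IsVinf A E N V) :
    V →+* LaurentSeries (kA A) :=
  (Fermat.Agent.A2.H553.redA A).comp
    (((iotaS E N).comp V.subtype).codRestrict (Fermat.Agent.A2.H553.gaussA A)
      (fun s => iotaS_mem_gaussA hV s.2))

theorem rho_eq {V : ValuationSubring (Mod.FE E N)} (hV : Mod.IsVinf A E N V) (s : V)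
    (U₁ U₂ : LaurentSeries (Mod.RE A E)) (h₂ : red (Mod.RE A E) U₂ ≠ 0)
    (he : ((s : Mod.FE E N) : LaurentSeries E) * incl (Mod.RE A E) U₂ =
      incl (Mod.RE A E) U₁) :
    rho hV s = red A (upA A E U₁) / red A (upA A E U₂) := by
  have h := congrArg (coeffMap (algebraMap E Kbar)) he
  rw [map_mul, ← incl_upA, ← incl_upA] at h
  exact Fermat.Agent.A2.H553.redA_eq (A := A) ⟨iotaS E N s, iotaS_mem_gaussA hV s.2⟩
    (upA A E U₁) (upA A E U₂) (red_upA_ne_zero E h₂) h

/-- reduction of an integral series -/
theorem rho_of_incl {V : ValuationSubring (Mod.FE E N)} (hV : Mod.IsVinf A E N V) (s : V)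
    (U : LaurentSeries (Mod.RE A E))
    (he : ((s : Mod.FE E N) : LaurentSeries E) = incl (Mod.RE A E) U) :
    rho hV s = red A (upA A E U) := by
  rw [rho_eq hV s U 1 (by rw [map_one]; exact one_ne_zero) (by rw [map_one, mul_one, he]),
    map_one, map_one, div_one]

/-- reduction of the constants -/
theorem rho_cE {V : ValuationSubring (Mod.FE E N)} (hV : Mod.IsVinf A E N V) (r : Mod.RE A E)
    (hr : Mod.cE A E N r ∈ V) :
    rho hV ⟨Mod.cE A E N r, hr⟩ =
      HahnSeries.single 0 (IsLocalRing.residue A (toA' A E r)) := by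
  rw [rho_of_incl hV _ (cstA (Mod.RE A E) r) ?_, upA_cstA, red_cstA]
  rw [incl_cstA]
  rfl

/-- reduction of the generators `j_d` -/
theorem rho_jE {V : ValuationSubring (Mod.FE E N)} (hV : Mod.IsVinf A E N V) (d : ℕ) [NeZero d]
    (hd : d ∣ N) (hj : Mod.jE E N d hd ∈ V) :
    rho hV ⟨Mod.jE E N d hd, hj⟩ = jqNModC (kA A) d := by
  rw [rho_of_incl hV _ (castA (Mod.RE A E) (jInt d)) ?_]
  · show coeffMap (IsLocalRing.residue A) (coeffMap (toA' A E)
      (coeffMap (Int.castRingHom (Mod.RE A E)) (jqNModC ℤ d))) = _
    rw [coeffMap_coeffMap, coeffMap_coeffMap, coeffMap_jqNModC]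
  · show ((Mod.jE E N d hd : Mod.FE E N) : LaurentSeries E) = _
    rw [Mod.H553.coe_jE, Mod.H553.coeffEmb_castQ (P := A)]

end Fermat.Agent.Ribet.H472

end
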