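import Fermat.Agent.Ribet.H472.ChartRed

/-!
# RIBET row 38, WALL-p, CoreOut leaf INST-E — units, reductions, values in `k(X₀(M))` (helper472)

* `inv_mem_of_rho_ne_zero`   : `ρ` detects the units of `V∞`;
* `isRedSer_rho`, `isRedSer_of_scaled` : `ρ s` is a reduction of `ι s` (`H997.IsRedSer`);
* `exists_scale`             : every nonzero function is a constant times a unit of `V∞`;
* `rho_mem_fullC`, `rhoF`    : at level `M·p` the reduction has values in `k(X₀(M))`.
-/

set_option autoImplicit false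
set_option linter.unusedSectionVars false
set_option linter.style.haveILetI false
set_option synthInstance.maxHeartbeats 400000
set_option maxHeartbeats 1600000

noncomputable section

namespace Fermat.Agent.Ribet.H472

open AlgebraicCurve ModularCurve HahnSeries
open Fermat.Agent.S24 Fermat.Agent.A2.H708 Fermat.Agent.A2.H528
open Fermat.Agent.Ribet.H884 Fermat.Agent.Ribet.H997
open Fermat.Agent.A2 Fermat.Agent.A2.Mod Fermat.Agent.S18.H602

variable {A : ValuationSubring Kbar} {E : IntermediateField ℚ Kbar} {N : ℕ}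
variable {M p : ℕ} [NeZero M] [NeZero p] {w : Mod.RE A E}

theorem residue_toA'_unif (hw : Irreducible w) : IsLocalRing.residue A (toA' A E w) = 0 := by
  rw [residue_eq_zero_iff_not_isUnit', isUnit_toA'_iff]
  exact hw.not_isUnit

/-- `ρ` kills the uniformiser. -/
theorem rho_unif (hS : Mod.Setting A E M p w) {V : ValuationSubring (Mod.FE E N)}
    (hV : Mod.IsVinf A E N V) (hw : Mod.cE A E N w ∈ V) :
    rho hV ⟨Mod.cE A E N w, hw⟩ = 0 := by
  rw [rho_cE hV w hw, residue_toA'_unif hS.unif]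
  exact map_zero _

/-- **`ρ` detects the units of `V∞`.** -/
theorem inv_mem_of_rho_ne_zero (hS : Mod.Setting A E M p w) (hN : N ≠ 0)
    {V : ValuationSubring (Mod.FE E N)} (hV : Mod.IsVinf A E N V) (s : V)
    (h : rho hV s ≠ 0) : ((s : Mod.FE E N))⁻¹ ∈ V := by
  by_contra hinv
  have hu := Mod.H372.unifE w hS hN hV
  have h1 : (s : Mod.FE E N) * (Mod.cE A E N w)⁻¹ ∈ V := hu.gen _ s.2 hinv
  have hw0 : Mod.cE A E N w ≠ 0 := Mod.H372.cE_ne_zero w hS N
  have h2 : s = ⟨_, h1⟩ * ⟨Mod.cE A E N w, hu.mem⟩ := by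
    apply Subtype.ext
    show (s : Mod.FE E N) = (s : Mod.FE E N) * (Mod.cE A E N w)⁻¹ * Mod.cE A E N w
    rw [inv_mul_cancel_right₀ hw0]
  apply h
  rw [h2, map_mul, rho_unif hS hV hu.mem, mul_zero]

/-- `ρ s` is a reduction of the `t`-expansion of `s`. -/
theorem isRedSer_rho {V : ValuationSubring (Mod.FE E N)} (hV : Mod.IsVinf A E N V) (s : V)
    (h : rho hV s ≠ 0) : IsRedSer A (iotaS E N s) (rho hV s) := by
  obtain ⟨U₁, U₂, h₂, -, he⟩ := (hV s).mp s.2
  have hr := rho_eq hV s U₁ U₂ h₂ he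
  have h₂A := red_upA_ne_zero E h₂
  have h₁A : red A (upA A E U₁) ≠ 0 := by
    intro h0
    rw [hr, h0, zero_div] at h
    exact h rfl
  refine ⟨1, upA A E U₁, upA A E U₂, one_ne_zero, h₁A, h₂A, ?_, ?_⟩
  · have h' := congrArg (coeffMap (algebraMap E Kbar)) he
    rw [map_mul, ← incl_upA, ← incl_upA] at h'
    rw [cst_one, one_mul]
    exact h'
  · rw [hr, div_mul_cancel₀ _ h₂A]

/-- `ρ (G / c)` is a reduction of the `t`-expansion of `G`, for a nonzero constant `c`. -/
theorem isRedSer_of_scaled {V : ValuationSubring (Mod.FE E N)} (hV : Mod.IsVinf A E N V)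
    (G : Mod.FE E N) (c : E) (hc : c ≠ 0)
    (hGc : G * (algebraMap E (Mod.FE E N) c)⁻¹ ∈ V) (h : rho hV ⟨_, hGc⟩ ≠ 0) :
    IsRedSer A (iotaS E N G) (rho hV ⟨_, hGc⟩) := by
  obtain ⟨c', U₁, U₂, hc', h₁, h₂, he, hr⟩ := isRedSer_rho hV ⟨_, hGc⟩ h
  have hcK : algebraMap E Kbar c ≠ 0 := by
    rwa [Ne, map_eq_zero_iff _ (algebraMap E Kbar).injective]
  refine ⟨c' * algebraMap E Kbar c, U₁, U₂, mul_ne_zero hc' hcK, h₁, h₂, ?_, hr⟩
  have e1 : iotaS E N (G * (algebraMap E (Mod.FE E N) c)⁻¹) =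
      iotaS E N G * (cst (algebraMap E Kbar c))⁻¹ := by
    rw [map_mul, map_inv₀, iotaS_algebraMap]
  have he' : iotaS E N G * (cst (algebraMap E Kbar c))⁻¹ * incl A U₂ = cst c' * incl A U₁ := by
    rw [← e1]
    exact he
  have hne : cst (algebraMap E Kbar c) ≠ 0 := cst_ne_zero hcK
  rw [cst_mul]
  calc iotaS E N G * incl A U₂
      = cst (algebraMap E Kbar c) *
          (iotaS E N G * (cst (algebraMap E Kbar c))⁻¹ * incl A U₂) := by
        field_simp
    _ = cst c' * cst (algebraMap E Kbar c) * incl A U₁ := by rw [he']; ring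

/-- Every nonzero function is a nonzero constant times a unit of `V∞`. -/
theorem exists_scale (hS : Mod.Setting A E M p w)
    {V : ValuationSubring (Mod.FE E N)} (hV : Mod.IsVinf A E N V) {G : Mod.FE E N}
    (hG : G ≠ 0) :
    ∃ c : E, c ≠ 0 ∧ G * (algebraMap E (Mod.FE E N) c)⁻¹ ∈ V ∧
      (G * (algebraMap E (Mod.FE E N) c)⁻¹)⁻¹ ∈ V := by
  haveI := hS.dvr
  obtain ⟨c, hc, hval⟩ := Mod.H553.exists_const_mul_unit A E hV hG
  refine ⟨c, hc, (V.valuation_le_one_iff _).mp hval.le, ?_⟩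
  rw [← V.valuation_le_one_iff, map_inv₀, hval, inv_one]

/-- a unit of `V∞` has nonzero reduction -/
theorem rho_ne_zero_of_inv_mem {V : ValuationSubring (Mod.FE E N)} (hV : Mod.IsVinf A E N V)
    (s : V) (hs0 : (s : Mod.FE E N) ≠ 0) (hs : ((s : Mod.FE E N))⁻¹ ∈ V) : rho hV s ≠ 0 := by
  intro h0
  have h1 : s * ⟨_, hs⟩ = (1 : V) := Subtype.ext (mul_inv_cancel₀ hs0)
  have h2 := congrArg (rho hV) h1
  rw [map_mul, h0, zero_mul, map_one] at h2
  exact zero_ne_one h2

/-- At level `M·p` the reduction has values in `k(X₀(M))` (REDFIELD, `H997`). -/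
theorem rho_mem_fullC (hp : p.Prime) (hpM : ¬ p ∣ M) (hA : A.LiesOverPrime p)
    {V : ValuationSubring (Mod.FE E (M * p))} (hV : Mod.IsVinf A E (M * p) V) (s : V) :
    rho hV s ∈ modularFunctionFieldFullC (kA A) M := by
  by_cases h : rho hV s = 0
  · rw [h]
    exact zero_mem _
  · exact isRedSer_mem_of_level_mul hp hpM hA (iotaS_mem_bar (s : Mod.FE E (M * p)))
      (isRedSer_rho hV s h)

/-- The reduction `V∞ → k(X₀(M))` at level `M·p`. -/
def rhoF (hp : p.Prime) (hpM : ¬ p ∣ M) (hA : A.LiesOverPrime p)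
    {V : ValuationSubring (Mod.FE E (M * p))} (hV : Mod.IsVinf A E (M * p) V) :
    V →+* modularFunctionFieldFullC (kA A) M :=
  (rho hV).codRestrict (modularFunctionFieldFullC (kA A) M)
    (fun s => rho_mem_fullC hp hpM hA hV s)

theorem coe_rhoF (hp : p.Prime) (hpM : ¬ p ∣ M) (hA : A.LiesOverPrime p)
    {V : ValuationSubring (Mod.FE E (M * p))} (hV : Mod.IsVinf A E (M * p) V) (s : V) :
    ((rhoF hp hpM hA hV s : modularFunctionFieldFullC (kA A) M) : LaurentSeries (kA A)) =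
      rho hV s := rfl

end Fermat.Agent.Ribet.H472

end
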