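import Fermat.Agent.Ribet.H472.OneSided
import Fermat.Agent.A2.Mod.H751.Fricke

/-!
# RIBET row 38, WALL-p, CoreOut leaf INST-E — the two frames and the slope dictionary
  (helper472)

* `pdivOfFrame` : the one-sided core with a FIXED normalisation `G / c₁` (a unit of `V'`):
  the reduction has `m`-divisible order at EVERY non-cuspidal place;
* `frameInf`, `frameZero` : the two frames `(V∞, ρ)` and `(V₀ = V∞ ∘ W, ρ ∘ W)`;
* `dictGen` : pure at every closed point of the special fibre of the finite chart ⟹ both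
  reductions lie in `k(X₀(M))` and have `m`-divisible orders at the non-cuspidal places.
  (`p` = residue characteristic, `m` = exponent; `m = p` is `H704.CoreOut.DictPureStatement`.)
-/

set_option autoImplicit false
set_option linter.unusedSectionVars false
set_option linter.style.haveILetI false
set_option synthInstance.maxHeartbeats 400000
set_option maxHeartbeats 1600000

noncomputable section

namespace Fermat.Agent.Ribet.H472

open AlgebraicCurve ModularCurve HahnSeries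
open Fermat.Agent.S24 Fermat.Agent.A2.H708 Fermat.Agent.A2.H528 Fermat.Agent.A2.H129
open Fermat.Agent.Ribet.H884 Fermat.Agent.Ribet.H997
open Fermat.Agent.A2 Fermat.Agent.A2.Mod Fermat.Agent.S18.H602

variable {A : ValuationSubring Kbar} {E : IntermediateField ℚ Kbar}
variable {M p : ℕ} [NeZero M] [NeZero p] {w : Mod.RE A E}

/-- **The one-sided core, fixed normalisation.** -/
theorem pdivOfFrame (hS : Mod.Setting A E M p w)
    (V' : ValuationSubring (Mod.FE E (M * p)))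
    (ρ' : V' →+* modularFunctionFieldFullC (kA A) M)
    (hunit : ∀ s : V', ρ' s ≠ 0 → ((s : Mod.FE E (M * p)))⁻¹ ∈ V')
    (hconst : ∀ r : Mod.RE A E, ∃ h : Mod.cE A E (M * p) r ∈ V',
      ρ' ⟨_, h⟩ = algebraMap (kA A) (modularFunctionFieldFullC (kA A) M)
        (IsLocalRing.residue A (toA' A E r)))
    (hscale : ∀ G : Mod.FE E (M * p), G ≠ 0 → ∃ c : E, c ≠ 0 ∧
      G * (algebraMap E (Mod.FE E (M * p)) c)⁻¹ ∈ V' ∧
      (G * (algebraMap E (Mod.FE E (M * p)) c)⁻¹)⁻¹ ∈ V')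
    (hx : ∀ Q : Place (kA A) (modularFunctionFieldFullC (kA A) M),
      0 ≤ Q.ord (jC (kA A) M) → ∃ h : Mod.xE E M p ∈ V', ρ' ⟨_, h⟩ ∈ Q.toValuationSubring)
    (hQ : ∀ Q : Place (kA A) (modularFunctionFieldFullC (kA A) M),
      Function.Surjective (algebraMap (kA A) Q.ResidueField))
    (hsurj : ∀ c : kA A, ∃ r : Mod.RE A E, IsLocalRing.residue A (toA' A E r) = c)
    (m : ℕ) (G : Mod.FE E (M * p)) (hG : G ≠ 0)
    (hpure : ∀ n : Ideal (Mod.chartAlg A E (M * p) (Mod.xE E M p)), n.IsMaximal →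
      algebraMap (Mod.RE A E) (Mod.chartAlg A E (M * p) (Mod.xE E M p)) w ∈ n →
      ∃ (d : Mod.FE E (M * p)) (a : ℤ), d ≠ 0 ∧
        Alg.LocUnit (Mod.chartAlg A E (M * p) (Mod.xE E M p)) n
          (G * Mod.cE A E (M * p) w ^ a * d ^ m))
    (c₁ : E) (hc₁ : c₁ ≠ 0)
    (h₁ : G * (algebraMap E (Mod.FE E (M * p)) c₁)⁻¹ ∈ V')
    (h₁' : (G * (algebraMap E (Mod.FE E (M * p)) c₁)⁻¹)⁻¹ ∈ V') :
    ρ' ⟨_, h₁⟩ ≠ 0 ∧ ∀ Q : Place (kA A) (modularFunctionFieldFullC (kA A) M),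
      0 ≤ Q.ord (jC (kA A) M) → (m : ℤ) ∣ Q.ord (ρ' ⟨_, h₁⟩) := by
  classical
  have hc₁F : algebraMap E (Mod.FE E (M * p)) c₁ ≠ 0 :=
    (map_ne_zero_iff _ (algebraMap E (Mod.FE E (M * p))).injective).mpr hc₁
  have hs₁0 : G * (algebraMap E (Mod.FE E (M * p)) c₁)⁻¹ ≠ 0 :=
    mul_ne_zero hG (inv_ne_zero hc₁F)
  set s₁ : V' := ⟨_, h₁⟩ with hs₁
  set t₁ : V' := ⟨_, h₁'⟩ with ht₁
  have hst : s₁ * t₁ = 1 := Subtype.ext (mul_inv_cancel₀ hs₁0)
  have hρst : ρ' s₁ * ρ' t₁ = 1 := by rw [← map_mul, hst, map_one]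
  have hρs₁ : ρ' s₁ ≠ 0 := left_ne_zero_of_mul_eq_one hρst
  refine ⟨hρs₁, fun Q hQj => ?_⟩
  obtain ⟨c, hc, h, hne, hdiv⟩ := oneSided hS V' ρ' hunit hconst hscale Q (hx Q hQj) (hQ Q)
    hsurj m G hpure
  have hcF : algebraMap E (Mod.FE E (M * p)) c ≠ 0 :=
    (map_ne_zero_iff _ (algebraMap E (Mod.FE E (M * p))).injective).mpr hc
  set s : V' := ⟨_, h⟩ with hs
  set u : V' := s * t₁ with hu
  have hsu : s = s₁ * u := by
    rw [hu, mul_comm s t₁, ← mul_assoc, hst, one_mul]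
  have hρu : ρ' u ≠ 0 := by
    intro h0
    apply hne
    show ρ' s = 0
    rw [hsu, map_mul, h0, mul_zero]
  -- `u` is the constant `c₁ / c`
  have huc : (u : Mod.FE E (M * p)) = algebraMap E (Mod.FE E (M * p)) (c₁ * c⁻¹) := by
    show G * (algebraMap E (Mod.FE E (M * p)) c)⁻¹ *
      (G * (algebraMap E (Mod.FE E (M * p)) c₁)⁻¹)⁻¹ = _
    rw [map_mul, map_inv₀]
    field_simp
  have hord : Q.ord (ρ' u) = 0 := by
    rcases (Mod.RE A E).mem_or_inv_mem (c₁ * c⁻¹) with hmem | hmem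
    · obtain ⟨h', hr'⟩ := hconst ⟨_, hmem⟩
      have : u = ⟨_, h'⟩ := Subtype.ext huc
      rw [this, hr']
      exact ord_algebraMap_eq_zero Q _
    · obtain ⟨h', hr'⟩ := hconst ⟨_, hmem⟩
      have hce : (c₁ * c⁻¹) ≠ 0 := mul_ne_zero hc₁ (inv_ne_zero hc)
      have h1 : u * ⟨_, h'⟩ = 1 := by
        apply Subtype.ext
        show (u : Mod.FE E (M * p)) * algebraMap E (Mod.FE E (M * p)) (c₁ * c⁻¹)⁻¹ = 1
        rw [huc, ← map_mul, mul_inv_cancel₀ hce, map_one]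
      have h2 : ρ' u * ρ' ⟨_, h'⟩ = 1 := by rw [← map_mul, h1, map_one]
      have h3 : ρ' u = (ρ' ⟨_, h'⟩)⁻¹ := eq_inv_of_mul_eq_one_left h2
      rw [h3, Place.ord_inv, hr', ord_algebraMap_eq_zero Q _, neg_zero]
  have h4 : Q.ord (ρ' s) = Q.ord (ρ' s₁) := by
    rw [hsu, map_mul, Place.ord_mul Q hρs₁ hρu, hord, add_zero]
  rw [← h4]
  exact hdiv

/-! ## The frame at `∞` -/

section FrameInf

variable (hp : p.Prime) (hpM : ¬ p ∣ M) (hA : A.LiesOverPrime p)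
  {V : ValuationSubring (Mod.FE E (M * p))} (hV : Mod.IsVinf A E (M * p) V)

theorem rho_ne_zero_of_rhoF (s : V) (h : rhoF hp hpM hA hV s ≠ 0) : rho hV s ≠ 0 := by
  intro h0
  apply h
  apply Subtype.ext
  rw [coe_rhoF, h0]
  rfl

theorem frameInf_unit (hS : Mod.Setting A E M p w) (s : V) (h : rhoF hp hpM hA hV s ≠ 0) :
    ((s : Mod.FE E (M * p)))⁻¹ ∈ V :=
  inv_mem_of_rho_ne_zero hS (Mod.H372.level_ne_zero w hS) hV s
    (rho_ne_zero_of_rhoF hp hpM hA hV s h)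

theorem frameInf_const (hS : Mod.Setting A E M p w) (r : Mod.RE A E) : ∃ h : Mod.cE A E (M * p) r ∈ V,
    rhoF hp hpM hA hV ⟨_, h⟩ = algebraMap (kA A) (modularFunctionFieldFullC (kA A) M)
      (IsLocalRing.residue A (toA' A E r)) := by
  refine ⟨Mod.H372.cE_mem w hS hV r, Subtype.ext ?_⟩
  rw [coe_rhoF, rho_cE]
  show _ = algebraMap (kA A) (LaurentSeries (kA A)) _
  rw [algebraMap_laurentSeries_eq_single]

theorem rhoF_jE_mem_place (Q : Place (kA A) (modularFunctionFieldFullC (kA A) M))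
    (hQ : 0 ≤ Q.ord (jC (kA A) M)) (d : ℕ) [NeZero d] (hd : d ∣ M * p)
    (hj : Mod.jE E (M * p) d hd ∈ V) :
    rhoF hp hpM hA hV ⟨_, hj⟩ ∈ Q.toValuationSubring := by
  have hmem : jqNModC (kA A) d ∈ modularFunctionFieldFullC (kA A) M := by
    have := rho_mem_fullC hp hpM hA hV ⟨_, hj⟩
    rwa [rho_jE hV d hd hj] at this
  have h1 : rhoF hp hpM hA hV ⟨_, hj⟩ = ⟨jqNModC (kA A) d, hmem⟩ :=
    Subtype.ext (rho_jE hV d hd hj)
  rw [h1]
  exact jqN_mem_place Q hQ d hmem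

theorem frameInf_x (hS : Mod.Setting A E M p w) (Q : Place (kA A) (modularFunctionFieldFullC (kA A) M))
    (hQ : 0 ≤ Q.ord (jC (kA A) M)) :
    ∃ h : Mod.xE E M p ∈ V, rhoF hp hpM hA hV ⟨_, h⟩ ∈ Q.toValuationSubring := by
  have hN := Mod.H372.level_ne_zero w hS
  have h1 := Mod.H372.jE_mem w hS hN hV 1 (one_dvd _)
  have h2 := Mod.H372.jE_mem w hS hN hV p (dvd_mul_left p M)
  refine ⟨V.mul_mem _ _ h1 h2, ?_⟩
  have e : (⟨Mod.xE E M p, V.mul_mem _ _ h1 h2⟩ : V) = ⟨_, h1⟩ * ⟨_, h2⟩ := rfl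
  rw [e, map_mul]
  exact Q.toValuationSubring.mul_mem _ _
    (rhoF_jE_mem_place hp hpM hA hV Q hQ 1 _ h1)
    (rhoF_jE_mem_place hp hpM hA hV Q hQ p _ h2)

end FrameInf

/-! ## The frame at `0` -/

section FrameZero

variable (hp : p.Prime) (hpM : ¬ p ∣ M) (hA : A.LiesOverPrime p)
  {V : ValuationSubring (Mod.FE E (M * p))} (hV : Mod.IsVinf A E (M * p) V)

/-- The Fricke involution of `F_{Mp,E}` as a ring homomorphism. -/
def frW (E : IntermediateField ℚ Kbar) (M p : ℕ) [NeZero M] [NeZero p] :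
    Mod.FE E (M * p) →+* Mod.FE E (M * p) :=
  (Mod.H751.frickeE E (M * p) : Mod.FE E (M * p) →+* Mod.FE E (M * p))

theorem frW_apply (f : Mod.FE E (M * p)) : frW E M p f = Mod.H751.frickeE E (M * p) f := rfl

theorem frW_algebraMap (c : E) :
    frW E M p (algebraMap E (Mod.FE E (M * p)) c) = algebraMap E (Mod.FE E (M * p)) c :=
  (Mod.H751.frickeE E (M * p)).commutes c

theorem frW_scaled (G : Mod.FE E (M * p)) (c : E) :
    frW E M p (G * (algebraMap E (Mod.FE E (M * p)) c)⁻¹) =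
      frW E M p G * (algebraMap E (Mod.FE E (M * p)) c)⁻¹ := by
  rw [map_mul, map_inv₀, frW_algebraMap]

/-- `V₀ = V∞ ∘ W`. -/
def vZero (V : ValuationSubring (Mod.FE E (M * p))) : ValuationSubring (Mod.FE E (M * p)) :=
  V.comap (frW E M p)

theorem mem_vZero {V : ValuationSubring (Mod.FE E (M * p))} {f : Mod.FE E (M * p)} :
    f ∈ vZero V ↔ frW E M p f ∈ V := Iff.rfl

/-- `W : V₀ → V∞`. -/
def frRes (V : ValuationSubring (Mod.FE E (M * p))) : vZero V →+* V :=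
  ((frW E M p).comp (vZero V).subtype).codRestrict V (fun s => s.2)

theorem coe_frRes {V : ValuationSubring (Mod.FE E (M * p))} (s : vZero V) :
    ((frRes V s : V) : Mod.FE E (M * p)) = frW E M p (s : Mod.FE E (M * p)) := rfl

/-- The reduction on the `0`-component: `ρ₀ = ρ ∘ W`. -/
def rhoZ : vZero V →+* modularFunctionFieldFullC (kA A) M :=
  (rhoF hp hpM hA hV).comp (frRes V)

theorem rhoZ_apply (s : vZero V) :
    rhoZ hp hpM hA hV s = rhoF hp hpM hA hV (frRes V s) := rfl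

theorem rhoZ_mk (f : Mod.FE E (M * p)) (hf : f ∈ vZero V) (g : Mod.FE E (M * p))
    (hg : g ∈ V) (hfg : frW E M p f = g) :
    rhoZ hp hpM hA hV ⟨f, hf⟩ = rhoF hp hpM hA hV ⟨g, hg⟩ := by
  rw [rhoZ_apply]
  exact congrArg _ (Subtype.ext hfg)

theorem frameZero_unit (hS : Mod.Setting A E M p w) (s : vZero V) (h : rhoZ hp hpM hA hV s ≠ 0) :
    ((s : Mod.FE E (M * p)))⁻¹ ∈ vZero V := by
  have h1 := frameInf_unit hp hpM hA hV hS (frRes V s) h
  rw [coe_frRes, ← map_inv₀] at h1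
  exact h1

theorem frameZero_const (hS : Mod.Setting A E M p w) (r : Mod.RE A E) : ∃ h : Mod.cE A E (M * p) r ∈ vZero V,
    rhoZ hp hpM hA hV ⟨_, h⟩ = algebraMap (kA A) (modularFunctionFieldFullC (kA A) M)
      (IsLocalRing.residue A (toA' A E r)) := by
  obtain ⟨h, hr⟩ := frameInf_const hp hpM hA hV hS r
  have hW : frW E M p (Mod.cE A E (M * p) r) = Mod.cE A E (M * p) r :=
    frW_algebraMap (r : E)
  have h0 : Mod.cE A E (M * p) r ∈ vZero V := by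
    rw [mem_vZero, hW]
    exact h
  refine ⟨h0, ?_⟩
  rw [rhoZ_mk hp hpM hA hV _ h0 _ h hW, hr]

theorem frameZero_scale (hS : Mod.Setting A E M p w)
    {V : ValuationSubring (Mod.FE E (M * p))} (hV : Mod.IsVinf A E (M * p) V)
    (G : Mod.FE E (M * p)) (hG : G ≠ 0) : ∃ c : E, c ≠ 0 ∧
    G * (algebraMap E (Mod.FE E (M * p)) c)⁻¹ ∈ vZero V ∧
    (G * (algebraMap E (Mod.FE E (M * p)) c)⁻¹)⁻¹ ∈ vZero V := by
  have hWG : frW E M p G ≠ 0 := (map_ne_zero_iff _ (frW E M p).injective).mpr hG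
  obtain ⟨c, hc, h1, h2⟩ := exists_scale hS hV hWG
  refine ⟨c, hc, ?_, ?_⟩
  · rw [mem_vZero, frW_scaled]
    exact h1
  · rw [mem_vZero, map_inv₀, frW_scaled]
    exact h2

theorem frW_jE_one :
    frW E M p (Mod.jE E (M * p) 1 (one_dvd _)) = Mod.jE E (M * p) (M * p) dvd_rfl :=
  (Mod.H751.isFricke_frickeE E (M * p)).1 1 (M * p) (one_dvd _) dvd_rfl (one_mul _)

theorem frW_jE_p :
    frW E M p (Mod.jE E (M * p) p (dvd_mul_left p M)) =
      Mod.jE E (M * p) M (dvd_mul_right M p) :=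
  (Mod.H751.isFricke_frickeE E (M * p)).1 p M (dvd_mul_left p M) (dvd_mul_right M p)
    (mul_comm p M)

theorem frameZero_x (hS : Mod.Setting A E M p w) (Q : Place (kA A) (modularFunctionFieldFullC (kA A) M))
    (hQ : 0 ≤ Q.ord (jC (kA A) M)) :
    ∃ h : Mod.xE E M p ∈ vZero V, rhoZ hp hpM hA hV ⟨_, h⟩ ∈ Q.toValuationSubring := by
  have hN := Mod.H372.level_ne_zero w hS
  have h1 := Mod.H372.jE_mem w hS hN hV (M * p) dvd_rfl
  have h2 := Mod.H372.jE_mem w hS hN hV M (dvd_mul_right M p)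
  have hW : frW E M p (Mod.xE E M p) =
      Mod.jE E (M * p) (M * p) dvd_rfl * Mod.jE E (M * p) M (dvd_mul_right M p) := by
    unfold Mod.xE
    rw [map_mul, frW_jE_one, frW_jE_p]
  have h0 : Mod.xE E M p ∈ vZero V := by
    rw [mem_vZero, hW]
    exact V.mul_mem _ _ h1 h2
  refine ⟨h0, ?_⟩
  rw [rhoZ_mk hp hpM hA hV _ h0 _ (V.mul_mem _ _ h1 h2) hW]
  have e : (⟨_, V.mul_mem _ _ h1 h2⟩ : V) = ⟨_, h1⟩ * ⟨_, h2⟩ := rfl
  rw [e, map_mul]
  exact Q.toValuationSubring.mul_mem _ _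
    (rhoF_jE_mem_place hp hpM hA hV Q hQ (M * p) _ h1)
    (rhoF_jE_mem_place hp hpM hA hV Q hQ M _ h2)

end FrameZero

/-! ## The slope dictionary, general exponent -/

/-- **DICT (pure form), general exponent `m`.** -/
theorem dictGen (hS : Mod.Setting A E M p w) (hE : A2.GoodField A E) (m : ℕ)
    (G : Mod.FE E (M * p)) (hG : G ≠ 0)
    (hpure : ∀ n : Ideal (Mod.chartAlg A E (M * p) (Mod.xE E M p)), n.IsMaximal →
      algebraMap (Mod.RE A E) (Mod.chartAlg A E (M * p) (Mod.xE E M p)) w ∈ n →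
      ∃ (d : Mod.FE E (M * p)) (a : ℤ), d ≠ 0 ∧
        Alg.LocUnit (Mod.chartAlg A E (M * p) (Mod.xE E M p)) n
          (G * Mod.cE A E (M * p) w ^ a * d ^ m)) :
    ∃ r₁ r₂ : LaurentSeries (kA A),
      IsRedSer A (iotaS E (M * p) G) r₁ ∧
      IsRedSer A (iotaS E (M * p) (Mod.H751.frickeE E (M * p) G)) r₂ ∧
      PDivFin m M r₁ ∧ PDivFin m M r₂ := by
  have hp := hS.q_prime
  have hpM := hS.q_not_dvd
  have hA := hS.lies_over
  have hN := Mod.H372.level_ne_zero w hS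
  obtain ⟨V, hV⟩ := Mod.H553.vinfExists A E (M * p) hN hS.dvr
  have hQ := fun Q : Place (kA A) (modularFunctionFieldFullC (kA A) M) =>
    residue_surjective_of_place hp hpM hA Q
  have hsurj := fun c : kA A => exists_RE_residue_eq hp hA hE c
  -- the `∞`-component
  obtain ⟨c₁, hc₁, h₁, h₁'⟩ := exists_scale hS hV hG
  obtain ⟨hne₁, hdiv₁⟩ := pdivOfFrame hS V (rhoF hp hpM hA hV)
    (frameInf_unit hp hpM hA hV hS) (frameInf_const hp hpM hA hV hS)
    (fun G hG => exists_scale hS hV hG) (frameInf_x hp hpM hA hV hS) hQ hsurj m G hG hpure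
    c₁ hc₁ h₁ h₁'
  -- the `0`-component
  have hWG : frW E M p G ≠ 0 := (map_ne_zero_iff _ (frW E M p).injective).mpr hG
  obtain ⟨c₂, hc₂, h₂, h₂'⟩ := exists_scale hS hV hWG
  have h₂z : G * (algebraMap E (Mod.FE E (M * p)) c₂)⁻¹ ∈ vZero V := by
    rw [mem_vZero, frW_scaled]
    exact h₂
  have h₂z' : (G * (algebraMap E (Mod.FE E (M * p)) c₂)⁻¹)⁻¹ ∈ vZero V := by
    rw [mem_vZero, map_inv₀, frW_scaled]
    exact h₂'
  obtain ⟨hne₂, hdiv₂⟩ := pdivOfFrame hS (vZero V) (rhoZ hp hpM hA hV)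
    (frameZero_unit hp hpM hA hV hS) (frameZero_const hp hpM hA hV hS)
    (frameZero_scale hS hV) (frameZero_x hp hpM hA hV hS) hQ hsurj m G hG hpure
    c₂ hc₂ h₂z h₂z'
  rw [rhoZ_mk hp hpM hA hV _ h₂z _ h₂ (frW_scaled G c₂)] at hne₂ hdiv₂
  refine ⟨rho hV ⟨_, h₁⟩, rho hV ⟨_, h₂⟩, ?_, ?_, ?_, ?_⟩
  · exact isRedSer_of_scaled hV G c₁ hc₁ h₁ (rho_ne_zero_of_rhoF hp hpM hA hV _ hne₁)
  · exact isRedSer_of_scaled hV (frW E M p G) c₂ hc₂ h₂
      (rho_ne_zero_of_rhoF hp hpM hA hV _ hne₂)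
  · exact ⟨rhoF hp hpM hA hV ⟨_, h₁⟩, rfl, hne₁, hdiv₁⟩
  · exact ⟨rhoF hp hpM hA hV ⟨_, h₂⟩, rfl, hne₂, hdiv₂⟩

end Fermat.Agent.Ribet.H472
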