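import Fermat.Agent.Ribet.H472.ResSurj

/-!
# RIBET row 38, WALL-p, CoreOut leaf INST-E — the one-sided core (helper472)

`oneSided`: for a valuation ring `V'` of `F_{Mp,E}` with a reduction `ρ' : V' → k(X₀(M))`
(`V' = V∞` with the Gauss reduction, or `V' = V₀ = V∞ ∘ W` with `ρ ∘ W`), a non-cuspidal place `Q`
of `k(X₀(M))` and the finite chart `B = chartAlg (x)`:

if `G · w^a · d^m` is a unit of `B_n` at every closed point `n ∋ w` of the chart (for suitable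
`a`, `d` depending on `n`), then some constant multiple of `G` is a unit of `V'` whose reduction
has order divisible by `m` at `Q`.
-/

set_option autoImplicit false
set_option linter.unusedSectionVars false
set_option linter.style.haveILetI false
set_option synthInstance.maxHeartbeats 400000
set_option maxHeartbeats 1600000

noncomputable section

namespace Fermat.Agent.Ribet.H472

open AlgebraicCurve ModularCurve HahnSeries
open Fermat.Agent.S24 Fermat.Agent.A2.H708 Fermat.Agent.A2.H528 Fermat.Agent.A2.H129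
open Fermat.Agent.Ribet.H884 Fermat.Agent.Ribet.H997
open Fermat.Agent.A2 Fermat.Agent.A2.Mod Fermat.Agent.S18.H602

variable {A : ValuationSubring Kbar} {E : IntermediateField ℚ Kbar}
variable {M p : ℕ} [NeZero M] [NeZero p] {w : Mod.RE A E}

theorem ord_pow472 {k κ : Type*} [Field k] [Field κ] [Algebra k κ] (Q : Place k κ) (z : κ)
    (m : ℕ) : Q.ord (z ^ m) = (m : ℤ) * Q.ord z := by
  have := Q.ord_zpow z (m : ℤ)
  rwa [zpow_natCast] at this

/-- **The one-sided core.** -/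
theorem oneSided (hS : Mod.Setting A E M p w)
    (V' : ValuationSubring (Mod.FE E (M * p)))
    (ρ' : V' →+* modularFunctionFieldFullC (kA A) M)
    (hunit : ∀ s : V', ρ' s ≠ 0 → ((s : Mod.FE E (M * p)))⁻¹ ∈ V')
    (hconst : ∀ r : Mod.RE A E, ∃ h : Mod.cE A E (M * p) r ∈ V',
      ρ' ⟨_, h⟩ = algebraMap (kA A) (modularFunctionFieldFullC (kA A) M)
        (IsLocalRing.residue A (toA' A E r)))
    (hscale : ∀ G : Mod.FE E (M * p), G ≠ 0 → ∃ c : E, c ≠ 0 ∧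
      G * (algebraMap E (Mod.FE E (M * p)) c)⁻¹ ∈ V' ∧
      (G * (algebraMap E (Mod.FE E (M * p)) c)⁻¹)⁻¹ ∈ V')
    (Q : Place (kA A) (modularFunctionFieldFullC (kA A) M))
    (hx : ∃ h : Mod.xE E M p ∈ V', ρ' ⟨_, h⟩ ∈ Q.toValuationSubring)
    (hQ : Function.Surjective (algebraMap (kA A) Q.ResidueField))
    (hsurj : ∀ c : kA A, ∃ r : Mod.RE A E, IsLocalRing.residue A (toA' A E r) = c)
    (m : ℕ) (G : Mod.FE E (M * p))
    (hpure : ∀ n : Ideal (Mod.chartAlg A E (M * p) (Mod.xE E M p)), n.IsMaximal →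
      algebraMap (Mod.RE A E) (Mod.chartAlg A E (M * p) (Mod.xE E M p)) w ∈ n →
      ∃ (d : Mod.FE E (M * p)) (a : ℤ), d ≠ 0 ∧
        Alg.LocUnit (Mod.chartAlg A E (M * p) (Mod.xE E M p)) n
          (G * Mod.cE A E (M * p) w ^ a * d ^ m)) :
    ∃ (c : E) (_ : c ≠ 0) (h : G * (algebraMap E (Mod.FE E (M * p)) c)⁻¹ ∈ V'),
      ρ' ⟨_, h⟩ ≠ 0 ∧ (m : ℤ) ∣ Q.ord (ρ' ⟨_, h⟩) := by
  classical
  -- the ring `R_E[x]` lies in `V'` and reduces into `O_Q`
  have key : ∀ s : Mod.FE E (M * p),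
      s ∈ Algebra.adjoin (Mod.RE A E) ({Mod.xE E M p} : Set (Mod.FE E (M * p))) →
      ∃ h : s ∈ V', ρ' ⟨s, h⟩ ∈ Q.toValuationSubring := by
    intro s hs
    induction hs using Algebra.adjoin_induction with
    | mem x hxm =>
      rw [Set.mem_singleton_iff] at hxm
      subst hxm
      exact hx
    | algebraMap r =>
      obtain ⟨h, hr⟩ := hconst r
      refine ⟨h, ?_⟩
      show ρ' ⟨Mod.cE A E (M * p) r, h⟩ ∈ Q.toValuationSubring
      rw [hr]
      exact Q.algebraMap_mem' _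
    | add x z _ _ hx' hz' =>
      obtain ⟨h1, h1'⟩ := hx'
      obtain ⟨h2, h2'⟩ := hz'
      refine ⟨V'.add_mem _ _ h1 h2, ?_⟩
      have e : (⟨x + z, V'.add_mem _ _ h1 h2⟩ : V') = ⟨x, h1⟩ + ⟨z, h2⟩ := rfl
      rw [e, map_add]
      exact add_mem h1' h2'
    | mul x z _ _ hx' hz' =>
      obtain ⟨h1, h1'⟩ := hx'
      obtain ⟨h2, h2'⟩ := hz'
      refine ⟨V'.mul_mem _ _ h1 h2, ?_⟩
      have e : (⟨x * z, V'.mul_mem _ _ h1 h2⟩ : V') = ⟨x, h1⟩ * ⟨z, h2⟩ := rfl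
      rw [e, map_mul]
      exact mul_mem h1' h2'
  have hSV : ∀ s : Algebra.adjoin (Mod.RE A E) ({Mod.xE E M p} : Set (Mod.FE E (M * p))),
      algebraMap _ (Mod.FE E (M * p)) s ∈ V' := fun s => (key s s.2).1
  have hSQ : ∀ s : Algebra.adjoin (Mod.RE A E) ({Mod.xE E M p} : Set (Mod.FE E (M * p))),
      ρ' ⟨algebraMap _ (Mod.FE E (M * p)) s, hSV s⟩ ∈ Q.toValuationSubring :=
    fun s => (key s s.2).2
  have hBV : ∀ b : Mod.chartAlg A E (M * p) (Mod.xE E M p), (b : Mod.FE E (M * p)) ∈ V' :=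
    fun b => mem_of_isIntegral472 V' hSV b.2
  have hmem : ∀ b : Mod.chartAlg A E (M * p) (Mod.xE E M p),
      chartRed472 V' ρ' (Mod.chartAlg A E (M * p) (Mod.xE E M p)) hBV b ∈
        Q.toValuationSubring :=
    fun b => red_mem_of_isIntegral V' ρ' Q hSV hSQ (hBV b) b.2
  -- the closed point of `Q`
  have hsurj' : ∀ c : kA A, ∃ r : Mod.RE A E,
      chartRed472 V' ρ' (Mod.chartAlg A E (M * p) (Mod.xE E M p)) hBV
        (algebraMap (Mod.RE A E) (Mod.chartAlg A E (M * p) (Mod.xE E M p)) r) =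
      algebraMap (kA A) (modularFunctionFieldFullC (kA A) M) c := by
    intro c
    obtain ⟨r, hr⟩ := hsurj c
    obtain ⟨h, hρ⟩ := hconst r
    refine ⟨r, ?_⟩
    rw [chartRed472_apply, ← hr]
    exact hρ
  have hmax := ptOf_isMaximal V' ρ' (Mod.chartAlg A E (M * p) (Mod.xE E M p)) Q hmem hQ hsurj'
  have hwn : algebraMap (Mod.RE A E) (Mod.chartAlg A E (M * p) (Mod.xE E M p)) w ∈
      ptOf V' ρ' (Mod.chartAlg A E (M * p) (Mod.xE E M p)) Q hmem := by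
    apply mem_ptOf_of_eq_zero
    obtain ⟨h, hρ⟩ := hconst w
    rw [chartRed472_apply]
    show ρ' ⟨Mod.cE A E (M * p) w, _⟩ = 0
    rw [hρ, residue_toA'_unif hS.unif, map_zero]
  obtain ⟨d, a, hd, hloc⟩ := hpure _ hmax hwn
  obtain ⟨huV, huinv, hρu0, -, -, hord0⟩ :=
    unitAt_of_locUnit V' ρ' (Mod.chartAlg A E (M * p) (Mod.xE E M p)) Q hmem hunit hloc
  obtain ⟨cd, hcd, hd₀, hd₀inv⟩ := hscale d hd
  -- the constant
  have hw0 : (w : E) ≠ 0 := fun h0 => hS.unif.ne_zero (Subtype.ext h0)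
  have hwF : Mod.cE A E (M * p) w ≠ 0 := Mod.H372.cE_ne_zero w hS (M * p)
  have hcdF : algebraMap E (Mod.FE E (M * p)) cd ≠ 0 :=
    (map_ne_zero_iff _ (algebraMap E (Mod.FE E (M * p))).injective).mpr hcd
  set c : E := ((w : E) ^ a * cd ^ m)⁻¹ with hc_def
  have hc : c ≠ 0 := inv_ne_zero (mul_ne_zero (zpow_ne_zero _ hw0) (pow_ne_zero _ hcd))
  have hcF : (algebraMap E (Mod.FE E (M * p)) c)⁻¹ =
      Mod.cE A E (M * p) w ^ a * algebraMap E (Mod.FE E (M * p)) cd ^ m := by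
    rw [hc_def, map_inv₀, inv_inv, map_mul, map_zpow₀, map_pow]
    rfl
  set d₀ : Mod.FE E (M * p) := d * (algebraMap E (Mod.FE E (M * p)) cd)⁻¹ with hd₀_def
  have hd₀0 : d₀ ≠ 0 := mul_ne_zero hd (inv_ne_zero hcdF)
  have hkey : G * (algebraMap E (Mod.FE E (M * p)) c)⁻¹ =
      (G * Mod.cE A E (M * p) w ^ a * d ^ m) * (d₀⁻¹) ^ m := by
    have hdm : d ^ m ≠ 0 := pow_ne_zero _ hd
    have h1 : d ^ m * (d ^ m)⁻¹ = 1 := mul_inv_cancel₀ hdm
    rw [hcF, hd₀_def, mul_inv, inv_inv, mul_pow, inv_pow]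
    calc G * (Mod.cE A E (M * p) w ^ a * algebraMap E (Mod.FE E (M * p)) cd ^ m)
        = G * Mod.cE A E (M * p) w ^ a * (d ^ m * (d ^ m)⁻¹) *
            algebraMap E (Mod.FE E (M * p)) cd ^ m := by rw [h1]; ring
      _ = G * Mod.cE A E (M * p) w ^ a * d ^ m *
            ((d ^ m)⁻¹ * algebraMap E (Mod.FE E (M * p)) cd ^ m) := by ring
  have hinvm : (d₀⁻¹) ^ m ∈ V' := pow_mem hd₀inv m
  have hGc : G * (algebraMap E (Mod.FE E (M * p)) c)⁻¹ ∈ V' := by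
    rw [hkey]
    exact V'.mul_mem _ _ huV hinvm
  refine ⟨c, hc, hGc, ?_⟩
  have hρ : ρ' ⟨_, hGc⟩ = ρ' ⟨_, huV⟩ * ρ' ⟨d₀⁻¹, hd₀inv⟩ ^ m := by
    rw [← map_pow, ← map_mul]
    congr 1
    exact Subtype.ext hkey
  have hρd : ρ' ⟨d₀⁻¹, hd₀inv⟩ ≠ 0 := by
    intro h0
    have h1 : (⟨d₀⁻¹, hd₀inv⟩ : V') * ⟨d₀, hd₀⟩ = 1 := Subtype.ext (inv_mul_cancel₀ hd₀0)
    have h2 := congrArg ρ' h1
    rw [map_mul, h0, zero_mul, map_one] at h2
    exact zero_ne_one h2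
  refine ⟨?_, ?_⟩
  · rw [hρ]
    exact mul_ne_zero hρu0 (pow_ne_zero _ hρd)
  · rw [hρ, Q.ord_mul hρu0 (pow_ne_zero _ hρd), hord0, zero_add, ord_pow472]
    exact dvd_mul_right _ _

end Fermat.Agent.Ribet.H472

end
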