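import Mathlib
import Fermat.Prelude.Def_AlgebraicCurve_DivisorClassGroup
import Fermat.Agent.A2.Alg.Spec
import Fermat.Agent.S24.FFBasic

/-!
# RIBET row 38, WALL-p, CoreOut leaf INST-E — abstract core (helper472)

`V ⊆ F` a valuation ring with a reduction `ρ : V →+* κ`, `Q` a place of `κ / k`, `B ⊆ F` a chart
(a subalgebra of `F` contained in `V`) which is integral over a subring whose reduction lies in
`O_Q`.  Then

* `mem_of_isIntegral472`, `red_mem_of_isIntegral` : elements integral over a ring mapping into `V`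
                              (reducing into `O_Q`) lie in `V` (reduce into `O_Q`);
* `ptOf`                    : the closed point `n_Q = {b ∈ B | ρ b ∈ 𝔪_Q}` of the chart;
* `ptOf_isMaximal`          : it is a maximal ideal (residue field of `Q` is `k`, constants lift);
* `unitAt_of_locUnit`       : a unit of `B_{n_Q}` is a unit of `V` whose reduction is a unit of
                              `O_Q` (so `ord_Q = 0`).

Mathlib + Prelude (`AlgebraicCurve.Place`) + `A2.Alg.LocUnit` only.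
-/

set_option autoImplicit false

namespace Fermat.Agent.Ribet.H472

open AlgebraicCurve

section Core

variable {R F : Type*} [CommRing R] [Field F] [Algebra R F]
variable {k κ : Type*} [Field k] [Field κ] [Algebra k κ]

/-- A unit of the valuation ring of a place has order `0`. -/
theorem ord_eq_zero_of_unit472 (Q : Place k κ) {z : κ}
    (hz : z ∈ Q.toValuationSubring) (hz' : z⁻¹ ∈ Q.toValuationSubring) (hz0 : z ≠ 0) :
    Q.ord z = 0 := by
  have h1 : (⟨z, hz⟩ : Q.toValuationSubring) * ⟨z⁻¹, hz'⟩ = 1 :=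
    Subtype.ext (mul_inv_cancel₀ hz0)
  have h2 : (⟨z⁻¹, hz'⟩ : Q.toValuationSubring) * ⟨z, hz⟩ = 1 :=
    Subtype.ext (inv_mul_cancel₀ hz0)
  exact Q.ord_coe_unit ⟨⟨z, hz⟩, ⟨z⁻¹, hz'⟩, h1, h2⟩

/-- An element of `O_Q` outside `𝔪_Q` has its inverse in `O_Q`. -/
theorem inv_mem_of_notMem_max472 (Q : Place k κ) (z : Q.toValuationSubring)
    (hz : z ∉ IsLocalRing.maximalIdeal Q.toValuationSubring) :
    ((z : κ))⁻¹ ∈ Q.toValuationSubring := by
  have hu : IsUnit z := by
    by_contra h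
    exact hz ((IsLocalRing.mem_maximalIdeal z).mpr h)
  obtain ⟨u, rfl⟩ := hu
  have h1 : ((u : Q.toValuationSubring) : κ) * ((u⁻¹ : (Q.toValuationSubring)ˣ) :
      Q.toValuationSubring) = 1 :=
    congrArg Subtype.val u.mul_inv
  have h2 : (((u : Q.toValuationSubring) : κ))⁻¹ =
      (((u⁻¹ : (Q.toValuationSubring)ˣ) : Q.toValuationSubring) : κ) :=
    inv_eq_of_mul_eq_one_right h1
  rw [h2]
  exact Subtype.mem _

variable (V : ValuationSubring F) (ρ : V →+* κ)

/-- Valuation rings are integrally closed: an element integral over a ring mapping into `V` lies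
in `V`. -/
theorem mem_of_isIntegral472 {S : Type*} [CommRing S] [Algebra S F]
    (hSV : ∀ s : S, algebraMap S F s ∈ V) {b : F} (hb : IsIntegral S b) : b ∈ V := by
  let ι : S →+* V := (algebraMap S F).codRestrict V.toSubring hSV
  obtain ⟨P, hP, hPb⟩ := hb
  have hint' : IsIntegral V b := by
    refine ⟨P.map ι, hP.map ι, ?_⟩
    rw [Polynomial.eval₂_map]
    have h1 : (algebraMap V F).comp ι = algebraMap S F := by
      ext s
      rfl
    rw [h1]
    exact hPb
  obtain ⟨z, hz⟩ := IsIntegrallyClosed.isIntegral_iff.mp hint'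
  rw [← hz]
  exact z.2

/-- **Integrality.**  If a ring `S → V` reduces into `O_Q`, then every element of `V` which is
integral over `S` reduces into `O_Q`. -/
theorem red_mem_of_isIntegral (Q : Place k κ) {S : Type*} [CommRing S] [Algebra S F]
    (hSV : ∀ s : S, algebraMap S F s ∈ V)
    (hSQ : ∀ s : S, ρ ⟨algebraMap S F s, hSV s⟩ ∈ Q.toValuationSubring)
    {b : F} (hbV : b ∈ V) (hb : IsIntegral S b) :
    ρ ⟨b, hbV⟩ ∈ Q.toValuationSubring := by
  -- `S → V → κ` lands in `O_Q`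
  let ι : S →+* V := (algebraMap S F).codRestrict V.toSubring hSV
  let ψ : S →+* Q.toValuationSubring :=
    (ρ.comp ι).codRestrict Q.toValuationSubring.toSubring hSQ
  obtain ⟨P, hP, hPb⟩ := hb
  -- the relation holds in `V`
  have hV0 : Polynomial.eval₂ ι (⟨b, hbV⟩ : V) P = 0 := by
    apply Subtype.ext
    have h1 : (V.subtype : V →+* F).comp ι = algebraMap S F := by
      ext s
      rfl
    have h2 := Polynomial.hom_eval₂ P ι (V.subtype : V →+* F) (⟨b, hbV⟩ : V)
    rw [h1] at h2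
    show (V.subtype : V →+* F) (Polynomial.eval₂ ι (⟨b, hbV⟩ : V) P) = 0
    rw [h2]
    exact hPb
  have hint' : IsIntegral Q.toValuationSubring (ρ ⟨b, hbV⟩) := by
    refine ⟨P.map ψ, hP.map ψ, ?_⟩
    rw [Polynomial.eval₂_map]
    have h1 : (algebraMap Q.toValuationSubring κ).comp ψ = ρ.comp ι := by
      ext s
      rfl
    rw [h1, ← Polynomial.hom_eval₂, hV0, map_zero]
  obtain ⟨z, hz⟩ := IsIntegrallyClosed.isIntegral_iff.mp hint'
  rw [← hz]
  exact z.2

variable (B : Subalgebra R F) (hBV : ∀ b : B, (b : F) ∈ V)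

/-- The restriction of the reduction to the chart. -/
def chartRed472 : B →+* κ :=
  ρ.comp ((B.val : B →+* F).codRestrict V.toSubring (fun b => hBV b))

theorem chartRed472_apply (b : B) : chartRed472 V ρ B hBV b = ρ ⟨(b : F), hBV b⟩ := rfl

variable {hBV}
variable (Q : Place k κ) (hmem : ∀ b : B, chartRed472 V ρ B hBV b ∈ Q.toValuationSubring)

/-- The reduction of the chart, with values in `O_Q`. -/
def chartRedQ472 : B →+* Q.toValuationSubring :=
  (chartRed472 V ρ B hBV).codRestrict Q.toValuationSubring.toSubring hmem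

/-- **The closed point of the chart attached to `Q`**: `n_Q = {b | ρ b ∈ 𝔪_Q}`. -/
def ptOf : Ideal B :=
  Ideal.comap (chartRedQ472 V ρ B Q hmem) (IsLocalRing.maximalIdeal Q.toValuationSubring)

theorem mem_ptOf (b : B) :
    b ∈ ptOf V ρ B Q hmem ↔
      (⟨chartRed472 V ρ B hBV b, hmem b⟩ : Q.toValuationSubring) ∈
        IsLocalRing.maximalIdeal Q.toValuationSubring := Iff.rfl

instance ptOf_isPrime : (ptOf V ρ B Q hmem).IsPrime :=
  Ideal.comap_isPrime _ _

/-- the kernel of the reduction lies in the point -/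
theorem mem_ptOf_of_eq_zero {b : B} (hb : chartRed472 V ρ B hBV b = 0) :
    b ∈ ptOf V ρ B Q hmem := by
  rw [mem_ptOf]
  have : (⟨chartRed472 V ρ B hBV b, hmem b⟩ : Q.toValuationSubring) = 0 := Subtype.ext hb
  rw [this]
  exact Ideal.zero_mem _

theorem inv_mem_of_notMem_ptOf {b : B} (hb : b ∉ ptOf V ρ B Q hmem) :
    (chartRed472 V ρ B hBV b)⁻¹ ∈ Q.toValuationSubring :=
  inv_mem_of_notMem_max472 Q ⟨chartRed472 V ρ B hBV b, hmem b⟩ hb

theorem ne_zero_of_notMem_ptOf {b : B} (hb : b ∉ ptOf V ρ B Q hmem) :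
    chartRed472 V ρ B hBV b ≠ 0 :=
  fun h => hb (mem_ptOf_of_eq_zero V ρ B Q hmem h)

/-- **The point of a place is closed** when the residue field of `Q` is `k` and the constants of
`R` reduce onto `k`. -/
theorem ptOf_isMaximal
    (hQ : Function.Surjective (algebraMap k Q.ResidueField))
    (hsurj : ∀ c : k, ∃ r : R, chartRed472 V ρ B hBV (algebraMap R B r) = algebraMap k κ c) :
    (ptOf V ρ B Q hmem).IsMaximal := by
  set n := ptOf V ρ B Q hmem with hn
  set φ := chartRedQ472 V ρ B Q hmem with hφ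
  rw [Ideal.isMaximal_iff]
  refine ⟨fun h1 => (ptOf_isPrime V ρ B Q hmem).ne_top ((Ideal.eq_top_iff_one _).mpr h1), ?_⟩
  intro J b hnJ hb hbJ
  obtain ⟨c₀, hc₀⟩ := hQ (IsLocalRing.residue Q.toValuationSubring (φ b))
  have hc₀0 : c₀ ≠ 0 := by
    rintro rfl
    rw [map_zero] at hc₀
    exact hb ((IsLocalRing.residue_eq_zero_iff _).mp hc₀.symm)
  obtain ⟨r, hr⟩ := hsurj c₀⁻¹
  have hφr : φ (algebraMap R B r) = algebraMap k Q.toValuationSubring c₀⁻¹ :=
    Subtype.ext hr
  have hres : IsLocalRing.residue Q.toValuationSubring (φ (b * algebraMap R B r) - 1) = 0 := by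
    rw [map_sub, map_mul, map_mul, map_one, hφr, ← hc₀]
    have h2 : IsLocalRing.residue Q.toValuationSubring
        (algebraMap k Q.toValuationSubring c₀⁻¹) = algebraMap k Q.ResidueField c₀⁻¹ := rfl
    rw [h2, ← map_mul, mul_inv_cancel₀ hc₀0, map_one, sub_self]
  have hmemn : b * algebraMap R B r - 1 ∈ n := by
    show φ (b * algebraMap R B r - 1) ∈ IsLocalRing.maximalIdeal _
    rw [map_sub, map_one]
    exact (IsLocalRing.residue_eq_zero_iff _).mp hres
  have h3 : b * algebraMap R B r ∈ J := J.mul_mem_right _ hbJ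
  have h4 : b * algebraMap R B r - (b * algebraMap R B r - 1) ∈ J :=
    J.sub_mem h3 (hnJ hmemn)
  simpa using h4

/-- **Units of `B_{n_Q}`**: if `ρ` detects the units of `V`, a unit `u` of the local ring of the
chart at the point of `Q` is a unit of `V`, and its reduction is a unit of `O_Q`. -/
theorem unitAt_of_locUnit
    (hunit : ∀ s : V, ρ s ≠ 0 → ((s : F))⁻¹ ∈ V)
    {u : F} (hu : Fermat.Agent.A2.Alg.LocUnit B (ptOf V ρ B Q hmem) u) :
    ∃ (hV : u ∈ V), u⁻¹ ∈ V ∧ ρ ⟨u, hV⟩ ≠ 0 ∧ ρ ⟨u, hV⟩ ∈ Q.toValuationSubring ∧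
      (ρ ⟨u, hV⟩)⁻¹ ∈ Q.toValuationSubring ∧ Q.ord (ρ ⟨u, hV⟩) = 0 := by
  obtain ⟨a, b, ha, hb, hab⟩ := hu
  have hρa := ne_zero_of_notMem_ptOf V ρ B Q hmem ha
  have hρb := ne_zero_of_notMem_ptOf V ρ B Q hmem hb
  have hb0 : (b : F) ≠ 0 := by
    intro h0
    apply hρb
    rw [chartRed472_apply]
    have : (⟨(b : F), hBV b⟩ : V) = 0 := Subtype.ext h0
    rw [this, map_zero]
  have ha0 : (a : F) ≠ 0 := by
    intro h0
    apply hρa
    rw [chartRed472_apply]
    have : (⟨(a : F), hBV a⟩ : V) = 0 := Subtype.ext h0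
    rw [this, map_zero]
  have hbinv : ((b : F))⁻¹ ∈ V := hunit ⟨(b : F), hBV b⟩ hρb
  have hainv : ((a : F))⁻¹ ∈ V := hunit ⟨(a : F), hBV a⟩ hρa
  have hu_eq : u = (a : F) * ((b : F))⁻¹ := by
    rw [← hab, mul_assoc, mul_inv_cancel₀ hb0, mul_one]
  have huV : u ∈ V := by
    rw [hu_eq]
    exact V.mul_mem _ _ (hBV a) hbinv
  have huinv : u⁻¹ ∈ V := by
    rw [hu_eq, mul_inv, inv_inv]
    exact V.mul_mem _ _ hainv (hBV b)
  have hρ : ρ ⟨u, huV⟩ * chartRed472 V ρ B hBV b = chartRed472 V ρ B hBV a := by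
    rw [chartRed472_apply, chartRed472_apply, ← map_mul]
    congr 1
    exact Subtype.ext hab
  have hρu : ρ ⟨u, huV⟩ = chartRed472 V ρ B hBV a * (chartRed472 V ρ B hBV b)⁻¹ := by
    rw [← hρ, mul_assoc, mul_inv_cancel₀ hρb, mul_one]
  have hρu0 : ρ ⟨u, huV⟩ ≠ 0 := by
    rw [hρu]
    exact mul_ne_zero hρa (inv_ne_zero hρb)
  have hm1 : ρ ⟨u, huV⟩ ∈ Q.toValuationSubring := by
    rw [hρu]
    exact Q.toValuationSubring.mul_mem _ _ (hmem a) (inv_mem_of_notMem_ptOf V ρ B Q hmem hb)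
  have hm2 : (ρ ⟨u, huV⟩)⁻¹ ∈ Q.toValuationSubring := by
    rw [hρu, mul_inv, inv_inv]
    exact Q.toValuationSubring.mul_mem _ _ (inv_mem_of_notMem_ptOf V ρ B Q hmem ha) (hmem b)
  exact ⟨huV, huinv, hρu0, hm1, hm2, ord_eq_zero_of_unit472 Q hm1 hm2 hρu0⟩

end Core

end Fermat.Agent.Ribet.H472
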