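import Fermat.Agent.Ribet.H472.ChartRed2
import Fermat.Agent.Ribet.H939.ResField
import Fermat.Agent.S18.H383.FF1Modular
import Fermat.Agent.S28.H867.IntZ
import Fermat.Agent.S28.H807.Analytic
import Fermat.Agent.Ribet.H884.EisSpec

/-!
# RIBET row 38, WALL-p, CoreOut leaf INST-E — residue fields and integrality of `j_d` (helper472)

* `exists_RE_residue_eq`        : the constants `R_E = A ∩ E` of a good level reduce ONTO the residue
                                  field `k` of `A` (`k` is algebraic over `𝔽_p`, the residue field of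
                                  `R_E` is algebraically closed);
* `residue_surjective_of_place` : the residue field of every place of `k(X₀(M))` is `k`;
* `jqN_mem_place`               : `j(t^d)` is integral over `ℤ[j]`, hence regular at every
                                  non-cuspidal place (`ord_Q j ≥ 0`).
-/

set_option autoImplicit false
set_option linter.unusedSectionVars false
set_option linter.style.haveILetI false
set_option synthInstance.maxHeartbeats 400000
set_option maxHeartbeats 1600000

noncomputable section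

namespace Fermat.Agent.Ribet.H472

open AlgebraicCurve ModularCurve HahnSeries
open Fermat.Agent.S24 Fermat.Agent.A2.H708 Fermat.Agent.A2.H528
open Fermat.Agent.Ribet.H884 Fermat.Agent.Ribet.H997
open Fermat.Agent.A2 Fermat.Agent.A2.Mod Fermat.Agent.S18.H602

variable {A : ValuationSubring Kbar} {E : IntermediateField ℚ Kbar}
variable {M p : ℕ} [NeZero M] [NeZero p]

instance isLocalHom_toA' (A : ValuationSubring Kbar) (E : IntermediateField ℚ Kbar) :
    IsLocalHom (toA' A E) :=
  ⟨fun a ha => (isUnit_toA'_iff E a).mp ha⟩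

/-- **The constants of a good level reduce onto the residue field of `A`.** -/
theorem exists_RE_residue_eq (hp : p.Prime) (hA : A.LiesOverPrime p) (hE : A2.GoodField A E)
    (c : kA A) : ∃ r : Mod.RE A E, IsLocalRing.residue A (toA' A E r) = c := by
  classical
  haveI : IsAlgClosed (IsLocalRing.ResidueField (Mod.RE A E)) := hE.algClosed
  haveI : CharP (kA A) p := (Fermat.Agent.Ribet.H939.resField p hp A hA).2
  set φ : IsLocalRing.ResidueField (Mod.RE A E) →+* kA A :=
    IsLocalRing.ResidueField.map (toA' A E) with hφ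
  have hint : φ.IsIntegral := by
    intro c
    obtain ⟨a, rfl⟩ := IsLocalRing.residue_surjective c
    have halgQ : IsAlgebraic ℚ (a : Kbar) := (AlgebraicClosure.isAlgebraic ℚ).isAlgebraic _
    have halgZ : IsAlgebraic ℤ (a : Kbar) := (IsFractionRing.isAlgebraic_iff ℤ ℚ Kbar).mpr halgQ
    obtain ⟨P, hP0, hPa⟩ := halgZ
    have hqa : Polynomial.aeval (a : Kbar) P.primPart = 0 :=
      Polynomial.aeval_primPart_eq_zero hP0 hPa
    have hqA : Polynomial.eval₂ (Int.castRingHom A) a P.primPart = 0 := by
      apply Subtype.ext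
      have h := Polynomial.hom_eval₂ P.primPart (Int.castRingHom A) A.subtype a
      rw [ZeroMemClass.coe_zero, ← hqa, Polynomial.aeval_def]
      have hc : (A.subtype).comp (Int.castRingHom A) = algebraMap ℤ Kbar := RingHom.ext_int _ _
      rw [← hc]
      exact h
    set P₁ := P.primPart.map (Int.castRingHom (IsLocalRing.ResidueField (Mod.RE A E))) with hP₁d
    have hP₁ : P₁ ≠ 0 := by
      intro h0
      have hdvd : Polynomial.C (p : ℤ) ∣ P.primPart := by
        rw [Polynomial.C_dvd_iff_dvd_coeff]
        intro i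
        have h1 := congrArg (fun r => φ (r.coeff i)) h0
        simp only [hP₁d, Polynomial.coeff_map, Polynomial.coeff_zero, map_zero, eq_intCast,
          map_intCast] at h1
        exact (CharP.intCast_eq_zero_iff (kA A) p _).mp h1
      have hu := (Polynomial.isPrimitive_iff_isUnit_of_C_dvd.mp
        (Polynomial.isPrimitive_primPart P)) _ hdvd
      have := Int.isUnit_iff.mp hu
      have h2 := hp.two_le
      omega
    refine ⟨P₁ * Polynomial.C P₁.leadingCoeff⁻¹, Polynomial.monic_mul_leadingCoeff_inv hP₁, ?_⟩
    rw [Polynomial.eval₂_mul, hP₁d, Polynomial.eval₂_map]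
    have hc : φ.comp (Int.castRingHom (IsLocalRing.ResidueField (Mod.RE A E))) =
        (IsLocalRing.residue A).comp (Int.castRingHom A) := RingHom.ext_int _ _
    rw [hc, ← Polynomial.hom_eval₂, hqA, map_zero, zero_mul]
  obtain ⟨α, hα⟩ := (IsAlgClosed.ringHom_bijective_of_isIntegral φ hint).2 c
  obtain ⟨r, rfl⟩ := IsLocalRing.residue_surjective α
  exact ⟨r, hα⟩

/-- **The residue field of a place of `k(X₀(M))` is `k`.** -/
theorem residue_surjective_of_place (hp : p.Prime) (hpM : ¬ p ∣ M) (hA : A.LiesOverPrime p)
    (Q : Place (kA A) (modularFunctionFieldFullC (kA A) M)) :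
    Function.Surjective (algebraMap (kA A) Q.ResidueField) := by
  haveI : IsAlgClosed (kA A) := (Fermat.Agent.Ribet.H939.resField p hp A hA).1
  haveI : CharP (kA A) p := (Fermat.Agent.Ribet.H939.resField p hp A hA).2
  have hchar : ∀ ℓ : ℕ, ℓ.Prime → ℓ ∣ M → ((ℓ : ℕ) : kA A) ≠ 0 := by
    intro ℓ hℓ hℓM h0
    have h1 := (CharP.cast_eq_zero_iff (kA A) p ℓ).mp h0
    have h2 : p = ℓ := (Nat.prime_dvd_prime_iff_eq hp hℓ).mp h1
    exact hpM (h2 ▸ hℓM)
  have hdeg : Module.finrank (kA A) Q.ResidueField = 1 :=
    Fermat.Agent.S18.H383.deg_eq_one_fullC (kA A) M hchar Q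
  intro x
  have htop : (⊥ : Subalgebra (kA A) Q.ResidueField) = ⊤ :=
    Subalgebra.bot_eq_top_of_finrank_eq_one hdeg
  have hx : x ∈ (⊥ : Subalgebra (kA A) Q.ResidueField) := by
    rw [htop]
    exact Algebra.mem_top
  exact Algebra.mem_bot.mp hx

section Integral

variable {k : Type} [Field k]

/-- **`j(t^d)` is regular at the non-cuspidal places** (integrality over `ℤ[j]`). -/
theorem jqN_mem_place (Q : Place k (modularFunctionFieldFullC k M))
    (hQ : 0 ≤ Q.ord (jC k M)) (d : ℕ) [NeZero d]
    (hmem : jqNModC k d ∈ modularFunctionFieldFullC k M) :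
    (⟨jqNModC k d, hmem⟩ : modularFunctionFieldFullC k M) ∈ Q.toValuationSubring := by
  obtain ⟨P, hP, hP0⟩ := Fermat.Agent.S28.H867.coreData_integral d
    (fun q hq _ _ => Fermat.Agent.S28.H807.nonempty_modPolyData q hq) d dvd_rfl
  have hjQ : jC k M ∈ Q.toValuationSubring := Fermat.Agent.S24.FF.mem_of_ord_nonneg Q hQ
  let jQ : Q.toValuationSubring := ⟨jC k M, hjQ⟩
  let θ : Polynomial ℤ →+* Q.toValuationSubring := (Polynomial.aeval (R := ℤ) jQ).toRingHom
  set y : modularFunctionFieldFullC k M := ⟨jqNModC k d, hmem⟩ with hy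
  have hint : IsIntegral Q.toValuationSubring y := by
    refine ⟨P.map θ, hP.map θ, ?_⟩
    rw [Polynomial.eval₂_map]
    apply Subtype.ext
    have h1 := Polynomial.hom_eval₂ P
      ((algebraMap Q.toValuationSubring (modularFunctionFieldFullC k M)).comp θ)
      ((modularFunctionFieldFullC k M).val : _ →+* LaurentSeries k) y
    have hcomp : ((modularFunctionFieldFullC k M).val : _ →+* LaurentSeries k).comp
        ((algebraMap Q.toValuationSubring (modularFunctionFieldFullC k M)).comp θ) =
        (coeffMap (Int.castRingHom k)).comp (Fermat.Agent.S28.evalAt (jqModC ℤ)) := by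
      refine Polynomial.ringHom_ext (fun n => ?_) ?_
      · simp [θ]
      · simp only [RingHom.comp_apply, θ, AlgHom.toRingHom_eq_coe, RingHom.coe_coe,
          Polynomial.aeval_X, Fermat.Agent.S28.evalAt]
        rw [coeffMap_jqModC]
        rfl
    have h2 := Polynomial.hom_eval₂ P (Fermat.Agent.S28.evalAt (jqModC ℤ))
      (coeffMap (Int.castRingHom k)) (qExpand ℤ d (jqModC ℤ))
    have hyv : ((modularFunctionFieldFullC k M).val : _ →+* LaurentSeries k) y =
        coeffMap (Int.castRingHom k) (qExpand ℤ d (jqModC ℤ)) := by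
      show jqNModC k d = _
      rw [← coeffMap_jqNModC (Int.castRingHom k) d]
      rfl
    show ((modularFunctionFieldFullC k M).val : _ →+* LaurentSeries k)
      (Polynomial.eval₂ ((algebraMap Q.toValuationSubring
        (modularFunctionFieldFullC k M)).comp θ) y P) = 0
    rw [h1, hcomp, hyv, ← h2, hP0, map_zero]
  obtain ⟨z, hz⟩ := IsIntegrallyClosed.isIntegral_iff.mp hint
  rw [← hz]
  exact z.2

end Integral

end Fermat.Agent.Ribet.H472

end
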